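/-
FF3/Mono7/Basic.lean — Mathlib-only leaf (L10) for the S33 long shot (Step A).

Monogenicity / Gauss max-formula.  `K ⊆ L` valued fields (values in the same `Γ₀`,
`w ∘ algebraMap = v`), `t : L`, `n : ℕ`, and the hypothesis

  (H)  every combination `∑ i < n, a i • t ^ i` with all `v (a i) ≤ 1` and some `v (a i) = 1`
       has `w = 1`

(i.e. the residues of `1, t, …, t^(n-1)` are linearly independent over the residue field of `K`).
Then `w (∑ a i • t ^ i) = max v (a i)`; the powers are `K`-linearly independent; if moreover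
`[L : K] = n` they form a basis, `O_L = ⊕ O_K t^i` and `w L = v K` (`e = 1`).
-/
import Mathlib

set_option autoImplicit false

namespace Fermat.Agent.FF3.Mono7

open Finset

section Val

variable {K L Γ₀ : Type*} [Field K] [Field L] [Algebra K L]
  [LinearOrderedCommGroupWithZero Γ₀] (v : Valuation K Γ₀) (w : Valuation L Γ₀)

/-- Hypothesis (H): residues of `1, t, …, t^(n-1)` are linearly independent. -/
def ResidueIndep (t : L) (n : ℕ) : Prop :=
  ∀ a : Fin n → K, (∀ i, v (a i) ≤ 1) → (∃ i, v (a i) = 1) →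
    w (∑ i, a i • t ^ (i : ℕ)) = 1

variable {v w}

/-- **Gauss max-formula**, lower bound and attainment: for a nonzero coefficient vector the value
of the combination is the maximum of the values of the coefficients. -/
theorem exists_eq_and_forall_le (hvw : ∀ x : K, w (algebraMap K L x) = v x) {t : L} {n : ℕ}
    (H : ResidueIndep v w t n) (a : Fin n → K) (ha : ∃ i, a i ≠ 0) :
    ∃ i₀, w (∑ i, a i • t ^ (i : ℕ)) = v (a i₀) ∧ ∀ i, v (a i) ≤ v (a i₀) := by
  obtain ⟨j, hj⟩ := ha
  obtain ⟨i₀, -, hmax⟩ := Finset.exists_max_image (Finset.univ : Finset (Fin n))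
    (fun i => v (a i)) ⟨j, Finset.mem_univ j⟩
  have hmax' : ∀ i, v (a i) ≤ v (a i₀) := fun i => hmax i (Finset.mem_univ i)
  have hne : a i₀ ≠ 0 := by
    intro h0
    have := hmax' j
    rw [h0, map_zero, le_zero_iff, map_eq_zero] at this
    exact hj this
  have hvne : v (a i₀) ≠ 0 := (map_ne_zero v).mpr hne
  refine ⟨i₀, ?_, hmax'⟩
  set b : Fin n → K := fun i => a i / a i₀ with hb
  have hb1 : ∀ i, v (b i) ≤ 1 := by
    intro i
    rw [hb, map_div₀]
    exact div_le_one_of_le₀ (hmax' i) zero_le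
  have hb0 : v (b i₀) = 1 := by
    rw [hb]
    simp only
    rw [div_self hne, map_one]
  have hH := H b hb1 ⟨i₀, hb0⟩
  have hsum : ∑ i, a i • t ^ (i : ℕ) = a i₀ • ∑ i, b i • t ^ (i : ℕ) := by
    rw [Finset.smul_sum]
    refine Finset.sum_congr rfl (fun i _ => ?_)
    rw [smul_smul, hb]
    simp only
    rw [mul_div_cancel₀ _ hne]
  rw [hsum, Algebra.smul_def, map_mul, hvw, hH, mul_one]

/-- The combination vanishes only for the zero vector. -/
theorem eq_zero_of_sum_eq_zero (hvw : ∀ x : K, w (algebraMap K L x) = v x) {t : L} {n : ℕ}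
    (H : ResidueIndep v w t n) (a : Fin n → K) (h0 : ∑ i, a i • t ^ (i : ℕ) = 0) :
    ∀ i, a i = 0 := by
  by_contra hcon
  rw [not_forall] at hcon
  obtain ⟨i₀, h1, h2⟩ := exists_eq_and_forall_le hvw H a hcon
  rw [h0, map_zero] at h1
  obtain ⟨j, hj⟩ := hcon
  have := h2 j
  rw [← h1, le_zero_iff, map_eq_zero] at this
  exact hj this

/-- Each coefficient is bounded by the value of the combination. -/
theorem le_of_sum (hvw : ∀ x : K, w (algebraMap K L x) = v x) {t : L} {n : ℕ}
    (H : ResidueIndep v w t n) (a : Fin n → K) (i : Fin n) :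
    v (a i) ≤ w (∑ i, a i • t ^ (i : ℕ)) := by
  by_cases ha : ∃ i, a i ≠ 0
  · obtain ⟨i₀, h1, h2⟩ := exists_eq_and_forall_le hvw H a ha
    rw [h1]
    exact h2 i
  · simp only [not_exists, not_not] at ha
    rw [ha i, map_zero]
    exact zero_le

/-- The powers `1, t, …, t^(n-1)` are linearly independent over `K`. -/
theorem linearIndependent_pow (hvw : ∀ x : K, w (algebraMap K L x) = v x) {t : L} {n : ℕ}
    (H : ResidueIndep v w t n) :
    LinearIndependent K (fun i : Fin n => t ^ (i : ℕ)) := by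
  rw [Fintype.linearIndependent_iff]
  intro a h0
  exact eq_zero_of_sum_eq_zero hvw H a h0

/-- **Monogenicity.**  If moreover `[L : K] = n`, every element of `L` is a unique combination,
and its value is the maximum of the values of the coefficients. -/
theorem exists_coeff (hvw : ∀ x : K, w (algebraMap K L x) = v x) {t : L} {n : ℕ}
    (H : ResidueIndep v w t n) (hn0 : 0 < n) (hn : Module.finrank K L = n) (x : L) :
    ∃ a : Fin n → K, x = ∑ i, a i • t ^ (i : ℕ) ∧ ∀ i, v (a i) ≤ w x := by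
  have hli := linearIndependent_pow hvw H
  have hcard : Fintype.card (Fin n) = Module.finrank K L := by rw [Fintype.card_fin, hn]
  have : Nonempty (Fin n) := Fin.pos_iff_nonempty.mp hn0
  let B := basisOfLinearIndependentOfCardEqFinrank hli hcard
  have hB : ∀ i, B i = t ^ (i : ℕ) := fun i => by
    rw [coe_basisOfLinearIndependentOfCardEqFinrank]
  have hx : x = ∑ i, (fun i => B.repr x i) i • t ^ (i : ℕ) := by
    conv_lhs => rw [← B.sum_repr x]
    refine Finset.sum_congr rfl (fun i _ => ?_)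
    rw [hB]
  refine ⟨fun i => B.repr x i, hx, ?_⟩
  intro i
  conv_rhs => rw [hx]
  exact le_of_sum hvw H _ i

/-- `O_L = ⊕ O_K t^i`: integral elements have integral coefficients. -/
theorem exists_coeff_le_one (hvw : ∀ x : K, w (algebraMap K L x) = v x) {t : L} {n : ℕ}
    (H : ResidueIndep v w t n) (hn0 : 0 < n) (hn : Module.finrank K L = n) (x : L)
    (hx : w x ≤ 1) :
    ∃ a : Fin n → K, (∀ i, v (a i) ≤ 1) ∧ x = ∑ i, a i • t ^ (i : ℕ) := by
  obtain ⟨a, hxa, hle⟩ := exists_coeff hvw H hn0 hn x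
  exact ⟨a, fun i => le_trans (hle i) hx, hxa⟩

/-- `e = 1`: the value groups agree. -/
theorem exists_val_eq (hvw : ∀ x : K, w (algebraMap K L x) = v x) {t : L} {n : ℕ}
    (H : ResidueIndep v w t n) (hn0 : 0 < n) (hn : Module.finrank K L = n) (x : L) :
    ∃ c : K, v c = w x := by
  obtain ⟨a, hxa, -⟩ := exists_coeff hvw H hn0 hn x
  by_cases ha : ∃ i, a i ≠ 0
  · obtain ⟨i₀, h1, -⟩ := exists_eq_and_forall_le hvw H a ha
    exact ⟨a i₀, by rw [hxa, h1]⟩
  · simp only [not_exists, not_not] at ha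
    refine ⟨0, ?_⟩
    rw [hxa, map_zero]
    simp [ha]

/-- Upper bound (ultrametric inequality), assuming `w t ≤ 1`. -/
theorem sum_le_of_forall_le (hvw : ∀ x : K, w (algebraMap K L x) = v x) {t : L} (ht : w t ≤ 1)
    {n : ℕ} (a : Fin n → K) {c : Γ₀} (hc : ∀ i, v (a i) ≤ c) :
    w (∑ i, a i • t ^ (i : ℕ)) ≤ c := by
  apply Valuation.map_sum_le
  intro i _
  rw [Algebra.smul_def, map_mul, hvw, map_pow]
  calc v (a i) * w t ^ (i : ℕ) ≤ c * 1 := by
        exact mul_le_mul' (hc i) (pow_le_one' ht _)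
    _ = c := mul_one c

/-- Integrality criterion: `w (∑ a i t^i) ≤ 1 ↔ ∀ i, v (a i) ≤ 1`. -/
theorem sum_le_one_iff (hvw : ∀ x : K, w (algebraMap K L x) = v x) {t : L} (ht : w t ≤ 1)
    {n : ℕ} (H : ResidueIndep v w t n) (a : Fin n → K) :
    w (∑ i, a i • t ^ (i : ℕ)) ≤ 1 ↔ ∀ i, v (a i) ≤ 1 :=
  ⟨fun h i => le_trans (le_of_sum hvw H a i) h, fun h => sum_le_of_forall_le hvw ht a h⟩

/-- A convenient source of (H): contrapositive ("reduction") form. -/
theorem residueIndep_of_forall_lt (hvw : ∀ x : K, w (algebraMap K L x) = v x) {t : L}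
    (ht : w t ≤ 1) {n : ℕ}
    (hred : ∀ a : Fin n → K, (∀ i, v (a i) ≤ 1) → w (∑ i, a i • t ^ (i : ℕ)) < 1 →
      ∀ i, v (a i) < 1) :
    ResidueIndep v w t n := by
  intro a ha1 ⟨i, hi⟩
  have hle : w (∑ i, a i • t ^ (i : ℕ)) ≤ 1 := sum_le_of_forall_le hvw ht a ha1
  rcases lt_or_eq_of_le hle with hlt | heq
  · exact absurd hi (ne_of_lt (hred a ha1 hlt i))
  · exact heq

end Val

end Fermat.Agent.FF3.Mono7
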