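/-
FF3/Mono7/Normed.lean — L10 in normed-field form (the shape consumed by
`FF3/NormContr` : `hval`, `hbasis`).
-/
import Fermat.Agent.FF3.Mono7.Basic

set_option autoImplicit false

namespace Fermat.Agent.FF3.Mono7

open Finset Polynomial

section Normed

variable {K L : Type*} [NormedField K] [IsUltrametricDist K] [NormedField L]
  [IsUltrametricDist L] [Algebra K L]

/-- Hypothesis (H) in normed form. -/
def ResidueIndepNorm (K : Type*) {L : Type*} [NormedField K] [NormedField L] [Algebra K L]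
    (t : L) (n : ℕ) : Prop :=
  ∀ a : Fin n → K, (∀ i, ‖a i‖ ≤ 1) → (∃ i, ‖a i‖ = 1) → ‖∑ i, a i • t ^ (i : ℕ)‖ = 1

theorem residueIndep_of_norm {t : L} {n : ℕ} (H : ResidueIndepNorm K t n) :
    ResidueIndep (NormedField.valuation (K := K)) (NormedField.valuation (K := L)) t n := by
  intro a ha1 ⟨i, hi⟩
  have h1 : ∀ i, ‖a i‖ ≤ 1 := fun i => by
    have := ha1 i
    rwa [NormedField.valuation_apply, ← NNReal.coe_le_coe, coe_nnnorm, NNReal.coe_one] at this
  have h2 : ‖a i‖ = 1 := by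
    rwa [NormedField.valuation_apply, ← NNReal.coe_inj, coe_nnnorm, NNReal.coe_one] at hi
  have := H a h1 ⟨i, h2⟩
  rw [NormedField.valuation_apply, ← NNReal.coe_inj, coe_nnnorm, NNReal.coe_one]
  exact this

variable (hiso : ∀ x : K, ‖algebraMap K L x‖ = ‖x‖)
include hiso

theorem valuation_compat (x : K) :
    NormedField.valuation (K := L) (algebraMap K L x) = NormedField.valuation (K := K) x := by
  rw [NormedField.valuation_apply, NormedField.valuation_apply, ← NNReal.coe_inj, coe_nnnorm,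
    coe_nnnorm]
  exact hiso x

/-- Gauss max-formula, normed form. -/
theorem exists_norm_sum_eq {t : L} {n : ℕ} (H : ResidueIndepNorm K t n) (a : Fin n → K)
    (ha : ∃ i, a i ≠ 0) :
    ∃ i₀, ‖∑ i, a i • t ^ (i : ℕ)‖ = ‖a i₀‖ ∧ ∀ i, ‖a i‖ ≤ ‖a i₀‖ := by
  obtain ⟨i₀, h1, h2⟩ := exists_eq_and_forall_le (valuation_compat hiso)
    (residueIndep_of_norm H) a ha
  refine ⟨i₀, ?_, fun i => ?_⟩
  · rwa [NormedField.valuation_apply, NormedField.valuation_apply, ← NNReal.coe_inj, coe_nnnorm,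
      coe_nnnorm] at h1
  · have := h2 i
    rwa [NormedField.valuation_apply, NormedField.valuation_apply, ← NNReal.coe_le_coe,
      coe_nnnorm, coe_nnnorm] at this

/-- Gauss max-formula with `iSup` (over a nonempty index set). -/
theorem norm_sum_eq_iSup {t : L} {n : ℕ} (H : ResidueIndepNorm K t n) (hn0 : 0 < n)
    (a : Fin n → K) : ‖∑ i, a i • t ^ (i : ℕ)‖ = ⨆ i, ‖a i‖ := by
  have hne : Nonempty (Fin n) := Fin.pos_iff_nonempty.mp hn0
  have hbdd : BddAbove (Set.range fun i => ‖a i‖) := (Set.finite_range _).bddAbove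
  by_cases ha : ∃ i, a i ≠ 0
  · obtain ⟨i₀, h1, h2⟩ := exists_norm_sum_eq hiso H a ha
    rw [h1]
    exact le_antisymm (le_ciSup hbdd i₀) (ciSup_le h2)
  · simp only [not_exists, not_not] at ha
    simp [ha]

/-- linear independence of the powers, normed form -/
theorem linearIndependent_pow_of_norm {t : L} {n : ℕ} (H : ResidueIndepNorm K t n) :
    LinearIndependent K (fun i : Fin n => t ^ (i : ℕ)) :=
  linearIndependent_pow (valuation_compat hiso) (residueIndep_of_norm H)

/-- every element is a combination of the powers, if `[L : K] = n` -/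
theorem exists_coeff_norm {t : L} {n : ℕ} (H : ResidueIndepNorm K t n) (hn0 : 0 < n)
    (hn : Module.finrank K L = n) (x : L) : ∃ a : Fin n → K, x = ∑ i, a i • t ^ (i : ℕ) := by
  obtain ⟨a, hx, -⟩ := exists_coeff (valuation_compat hiso) (residueIndep_of_norm H) hn0 hn x
  exact ⟨a, hx⟩

/-- `hbasis`, coefficient form: `O_L = ⊕ O_K t^i`. -/
theorem exists_coeff_norm_le_one {t : L} {n : ℕ} (H : ResidueIndepNorm K t n) (hn0 : 0 < n)
    (hn : Module.finrank K L = n) (h : L) (hh : ‖h‖ ≤ 1) :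
    ∃ a : Fin n → K, (∀ i, ‖a i‖ ≤ 1) ∧ h = ∑ i, a i • t ^ (i : ℕ) := by
  have hh' : NormedField.valuation (K := L) h ≤ 1 := by
    rwa [NormedField.valuation_apply, ← NNReal.coe_le_coe, coe_nnnorm, NNReal.coe_one]
  obtain ⟨a, ha, hx⟩ := exists_coeff_le_one (valuation_compat hiso) (residueIndep_of_norm H)
    hn0 hn h hh'
  refine ⟨a, fun i => ?_, hx⟩
  have := ha i
  rwa [NormedField.valuation_apply, ← NNReal.coe_le_coe, coe_nnnorm, NNReal.coe_one] at this

/-- `hval` : `e = 1`. -/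
theorem exists_norm_eq {t : L} {n : ℕ} (H : ResidueIndepNorm K t n) (hn0 : 0 < n)
    (hn : Module.finrank K L = n) (x : L) : ∃ π : K, ‖π‖ = ‖x‖ := by
  obtain ⟨c, hc⟩ := exists_val_eq (valuation_compat hiso) (residueIndep_of_norm H) hn0 hn x
  refine ⟨c, ?_⟩
  rwa [NormedField.valuation_apply, NormedField.valuation_apply, ← NNReal.coe_inj, coe_nnnorm,
    coe_nnnorm] at hc

/-- `hbasis`, polynomial form, for any subring `O` of `K` which is the closed unit ball. -/
theorem exists_poly_of_norm_le_one (O : Subring K) (hO : ∀ x : K, x ∈ O ↔ ‖x‖ ≤ 1) {t : L} {n : ℕ}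
    (H : ResidueIndepNorm K t n) (hn0 : 0 < n) (hn : Module.finrank K L = n) (h : L)
    (hh : ‖h‖ ≤ 1) : ∃ P : O[X], h = aeval t (P.map O.subtype) := by
  obtain ⟨a, ha, hx⟩ := exists_coeff_norm_le_one hiso H hn0 hn h hh
  refine ⟨∑ i : Fin n, C (⟨a i, (hO _).mpr (ha i)⟩ : O) * X ^ (i : ℕ), ?_⟩
  rw [hx, Polynomial.map_sum, map_sum]
  refine Finset.sum_congr rfl (fun i _ => ?_)
  rw [Polynomial.map_mul, Polynomial.map_pow, Polynomial.map_C, Polynomial.map_X, map_mul,
    map_pow, aeval_X, aeval_C, Algebra.smul_def]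
  rfl

end Normed

end Fermat.Agent.FF3.Mono7
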